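/-
S29 / S42 Program A, descent `ℂ → ℚ̄` by derivations (DESC-D), helper42.
Local lemma, part 1: generalities on logarithmic derivatives, the subalgebra `Sreg`, and the
ALGEBRAIC places.

Abstract setting: fields `k`, `Ω` (constants), a function field `Fk / k`, a field `M / Ω`,
ring homs `ι : k → Ω`, `j : Fk → M` with `j (a) = ι a` on constants.  A derivation `d` of `M`
is *admissible* if it maps constants to constants and kills `j (Fk)`.

Main result `dlog_mem_of_alg`: if some nonzero element of `j (Fk)` vanishes at the place `v`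
of `M / Ω`, then `d f / f` is regular at `v` for every `f ≠ 0` which is a quotient of
`Ω`-combinations of elements of `j (Fk)`.
-/
import Mathlib
import Fermat.Agent.S18.H29.Eval
import Fermat.Agent.S24.Residue

set_option autoImplicit false

open AlgebraicCurve

noncomputable section

namespace Fermat.Agent.S29.H42

open Fermat.Agent.S24 Fermat.Agent.S18.H29

section DerivLemmas

variable {M : Type*} [Field M] (d : Derivation ℤ M M)

theorem d_zpow_eq_zero {y : M} (hy : d y = 0) (n : ℤ) : d (y ^ n) = 0 := by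
  rw [Derivation.leibniz_zpow, hy, smul_zero, smul_zero]

theorem dlog_mul {f g : M} (hf : f ≠ 0) (hg : g ≠ 0) :
    d (f * g) / (f * g) = d f / f + d g / g := by
  rw [Derivation.leibniz]
  simp only [smul_eq_mul]
  field_simp
  ring

theorem dlog_inv {f : M} (hf : f ≠ 0) : d f⁻¹ / f⁻¹ = -(d f / f) := by
  rw [Derivation.leibniz_inv]
  simp only [smul_eq_mul]
  field_simp

theorem dlog_div {f g : M} (hf : f ≠ 0) (hg : g ≠ 0) :
    d (f / g) / (f / g) = d f / f - d g / g := by
  have h : f / g = f * g⁻¹ := div_eq_mul_inv f g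
  rw [h, dlog_mul d hf (inv_ne_zero hg), dlog_inv d hg, sub_eq_add_neg]

theorem dlog_zpow {f : M} (hf : f ≠ 0) (n : ℤ) : d (f ^ n) / f ^ n = n * (d f / f) := by
  rw [Derivation.leibniz_zpow]
  simp only [smul_eq_mul, zsmul_eq_mul]
  rw [zpow_sub₀ hf, zpow_one]
  have := zpow_ne_zero n hf
  field_simp

theorem dlog_pow {f : M} (hf : f ≠ 0) (n : ℕ) : d (f ^ n) / f ^ n = n * (d f / f) := by
  have := dlog_zpow d hf (n : ℤ)
  simpa using this

theorem dlog_of_d_eq_zero {f : M} (h : d f = 0) : d f / f = 0 := by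
  rw [h, zero_div]

end DerivLemmas

variable {k Ω Fk M : Type*} [Field k] [Field Ω] [Field Fk] [Field M] [Algebra k Fk] [Algebra Ω M]

/-- The `Ω`-subalgebra of `M` generated by the elements of `j (Fk)` lying in `O`. -/
def Sreg (Ω : Type*) [Field Ω] [Algebra Ω M] (j : Fk →+* M) (O : ValuationSubring M) :
    Subalgebra Ω M :=
  Algebra.adjoin Ω {y | y ∈ Set.range j ∧ y ∈ O}

theorem Sreg_mem_and (j : Fk →+* M) (O : ValuationSubring M)
    (hO : ∀ c : Ω, algebraMap Ω M c ∈ O) (d : Derivation ℤ M M)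
    (hdc : ∀ c : Ω, ∃ c' : Ω, d (algebraMap Ω M c) = algebraMap Ω M c')
    (hdj : ∀ u : Fk, d (j u) = 0) {s : M} (hs : s ∈ Sreg Ω j O) : s ∈ O ∧ d s ∈ O := by
  unfold Sreg at hs
  induction hs using Algebra.adjoin_induction with
  | mem y hy =>
    obtain ⟨⟨u, rfl⟩, hy⟩ := hy
    exact ⟨hy, by rw [hdj]; exact zero_mem _⟩
  | algebraMap c =>
    obtain ⟨c', hc'⟩ := hdc c
    exact ⟨hO c, hc' ▸ hO c'⟩
  | add x y _ _ hx hy => exact ⟨add_mem hx.1 hy.1, by rw [map_add]; exact add_mem hx.2 hy.2⟩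
  | mul x y _ _ hx hy =>
    refine ⟨mul_mem hx.1 hy.1, ?_⟩
    rw [Derivation.leibniz]
    exact add_mem (mul_mem hx.1 hy.2) (mul_mem hy.1 hx.2)

theorem Sreg_mem (j : Fk →+* M) (O : ValuationSubring M)
    (hO : ∀ c : Ω, algebraMap Ω M c ∈ O) {s : M} (hs : s ∈ Sreg Ω j O) : s ∈ O := by
  unfold Sreg at hs
  induction hs using Algebra.adjoin_induction with
  | mem y hy => exact hy.2
  | algebraMap c => exact hO c
  | add x y _ _ hx hy => exact add_mem hx hy
  | mul x y _ _ hx hy => exact mul_mem hx hy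

/-- A unit of `O` lying in `Sreg` has regular logarithmic derivative. -/
theorem dlog_mem_of_Sreg (j : Fk →+* M) (O : ValuationSubring M)
    (hO : ∀ c : Ω, algebraMap Ω M c ∈ O) (d : Derivation ℤ M M)
    (hdc : ∀ c : Ω, ∃ c' : Ω, d (algebraMap Ω M c) = algebraMap Ω M c')
    (hdj : ∀ u : Fk, d (j u) = 0) {s : M} (hs : s ∈ Sreg Ω j O) (hs' : s ∉ O.nonunits) :
    d s / s ∈ O := by
  have h := Sreg_mem_and j O hO d hdc hdj hs
  rw [ValuationSubring.mem_nonunits_iff_or, not_or, not_not] at hs'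
  rw [div_eq_mul_inv]
  exact mul_mem h.2 hs'.2

/-- `ev` of a finite sum of regular elements. -/
theorem ev_sum' (v : Place Ω M) (hdeg : v.deg = 1) {I : Type*} (T : Finset I) (y : I → M)
    (hy : ∀ i ∈ T, y i ∈ v.toValuationSubring) :
    ev v hdeg (∑ i ∈ T, y i) = ∑ i ∈ T, ev v hdeg (y i) := by
  classical
  induction T using Finset.induction_on with
  | empty =>
    simp only [Finset.sum_empty]
    have := ev_const (P := v) hdeg (0 : Ω)
    rwa [map_zero] at this
  | insert a T ha ih =>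
    rw [Finset.sum_insert ha, Finset.sum_insert ha,
      ev_add hdeg (hy a (Finset.mem_insert_self a T))
        (Subring.sum_mem _ fun i hi => hy i (Finset.mem_insert_of_mem hi)),
      ih fun i hi => hy i (Finset.mem_insert_of_mem hi)]

/-- membership in the maximal ideal through `ev` -/
theorem mem_nonunits_iff_ev (v : Place Ω M) (hdeg : v.deg = 1) {y : M}
    (hy : y ∈ v.toValuationSubring) : y ∈ v.toValuationSubring.nonunits ↔ ev v hdeg y = 0 := by
  rw [ev_eq_zero_iff hdeg hy]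
  rcases eq_or_ne y 0 with rfl | h0
  · simp
  · rw [H94.ord_pos_iff_mem_nonunits v h0]
    simp [h0]

section Alg

variable (ι : k →+* Ω) (j : Fk →+* M)
  (hj : ∀ a : k, j (algebraMap k Fk a) = algebraMap Ω M (ι a))
  (x₀ : Fk) (halg : ∀ y : Fk, IsAlgebraic (Algebra.adjoin k {x₀}) y)
  (v : Place Ω M)

include hj halg in
/-- Residues of elements of `Fk` at an algebraic place lie in `k`. -/
theorem exists_residue_alg [IsAlgClosed k]
    (hv : ∃ u : Fk, u ≠ 0 ∧ j u ∈ v.toValuationSubring.nonunits) {y : Fk}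
    (hy : j y ∈ v.toValuationSubring) :
    ∃ b : k, j (y - algebraMap k Fk b) ∈ v.toValuationSubring.nonunits := by
  set A₀ : ValuationSubring Fk := v.toValuationSubring.comap j with hA₀
  have hK : ∀ a : k, algebraMap k Fk a ∈ A₀ := fun a => by
    rw [hA₀, ValuationSubring.mem_comap, hj]
    exact v.algebraMap_mem' _
  have hA : A₀ ≠ ⊤ := by
    obtain ⟨u, hu0, hu⟩ := hv
    intro htop
    have h1 : u⁻¹ ∈ A₀ := by rw [htop]; exact ValuationSubring.mem_top _
    rw [hA₀, ValuationSubring.mem_comap, map_inv₀] at h1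
    rw [ValuationSubring.mem_nonunits_iff_or] at hu
    rcases hu with hu | hu
    · exact hu0 ((map_eq_zero j).mp hu)
    · exact hu h1
  obtain ⟨b, hb⟩ := H94.exists_sub_mem_nonunits A₀ hK hA x₀ halg (x := y)
    (by rw [hA₀, ValuationSubring.mem_comap]; exact hy)
  refine ⟨b, ?_⟩
  rw [ValuationSubring.mem_nonunits_iff_or] at hb ⊢
  rcases hb with hb | hb
  · left; rw [hb, map_zero]
  · right
    rw [hA₀, ValuationSubring.mem_comap, map_inv₀] at hb
    exact hb

/-- A generator of the value group of `v ∘ j` at an algebraic place. -/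
theorem exists_gen_alg (hv : ∃ u : Fk, u ≠ 0 ∧ j u ∈ v.toValuationSubring.nonunits) :
    ∃ (t₀ : Fk) (e : ℤ), t₀ ≠ 0 ∧ 0 < e ∧ v.ord (j t₀) = e ∧
      ∀ u : Fk, u ≠ 0 → e ∣ v.ord (j u) := by
  classical
  have hex : ∃ n : ℕ, 0 < n ∧ ∃ u : Fk, u ≠ 0 ∧ v.ord (j u) = n := by
    obtain ⟨u, hu0, hu⟩ := hv
    have hju : j u ≠ 0 := (map_ne_zero j).mpr hu0
    have hpos : 0 < v.ord (j u) := (H94.ord_pos_iff_mem_nonunits v hju).mpr hu
    exact ⟨(v.ord (j u)).toNat, by omega, u, hu0, by omega⟩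
  obtain ⟨hn0, t₀, ht0, hte⟩ := Nat.find_spec hex
  refine ⟨t₀, (Nat.find hex : ℤ), ht0, by exact_mod_cast hn0, hte, fun u hu => ?_⟩
  have he : (0 : ℤ) < (Nat.find hex : ℤ) := by exact_mod_cast hn0
  have hr := Int.emod_nonneg (v.ord (j u)) he.ne'
  have hr' := Int.emod_lt_of_pos (v.ord (j u)) he
  have hdm := Int.emod_add_mul_ediv (v.ord (j u)) (Nat.find hex : ℤ)
  have hu' : u * t₀ ^ (-(v.ord (j u) / (Nat.find hex : ℤ))) ≠ 0 :=
    mul_ne_zero hu (zpow_ne_zero _ ht0)
  have hord : v.ord (j (u * t₀ ^ (-(v.ord (j u) / (Nat.find hex : ℤ)))))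
      = v.ord (j u) % (Nat.find hex : ℤ) := by
    rw [map_mul, map_zpow₀, v.ord_mul ((map_ne_zero j).mpr hu)
      (zpow_ne_zero _ ((map_ne_zero j).mpr ht0)), v.ord_zpow, hte]
    linarith
  by_contra hdvd
  have hr0 : v.ord (j u) % (Nat.find hex : ℤ) ≠ 0 := fun h => hdvd (Int.dvd_of_emod_eq_zero h)
  have hlt : (v.ord (j u) % (Nat.find hex : ℤ)).toNat < Nat.find hex := by omega
  exact Nat.find_min hex hlt ⟨by omega, _, hu', by rw [hord]; omega⟩

include hj halg in
/-- **Core of the algebraic case.**  Every nonzero `Ω`-combination of elements of `j (Fk)` is a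
power of `j t₀` times a unit of `O_v` lying in `Sreg`. -/
theorem alg_core [IsAlgClosed k] (hdeg : v.deg = 1)
    (hv : ∃ u : Fk, u ≠ 0 ∧ j u ∈ v.toValuationSubring.nonunits)
    {t₀ : Fk} {e : ℤ} (ht₀ : t₀ ≠ 0) (he : 0 < e) (hte : v.ord (j t₀) = e)
    (hdvd : ∀ u : Fk, u ≠ 0 → e ∣ v.ord (j u)) {I : Type*} (c : I → Ω) :
    ∀ (n : ℕ) (T : Finset I) (u : I → Fk), T.card = n →
      (∑ i ∈ T, algebraMap Ω M (c i) * j (u i)) ≠ 0 →
      ∃ (a : ℤ) (s' : M), s' ∈ Sreg Ω j v.toValuationSubring ∧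
        s' ∉ v.toValuationSubring.nonunits ∧
        ∑ i ∈ T, algebraMap Ω M (c i) * j (u i) = j t₀ ^ a * s' := by
  classical
  intro n
  induction n using Nat.strong_induction_on with
  | _ n ih =>
  intro T u hcard hs
  have hjt : j t₀ ≠ 0 := (map_ne_zero j).mpr ht₀
  by_cases hzero : ∃ i₀ ∈ T, u i₀ = 0
  · obtain ⟨i₀, hi₀, hu₀⟩ := hzero
    have hsum : ∑ i ∈ T, algebraMap Ω M (c i) * j (u i)
        = ∑ i ∈ T.erase i₀, algebraMap Ω M (c i) * j (u i) := by
      rw [← Finset.add_sum_erase T _ hi₀, hu₀, map_zero, mul_zero, zero_add]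
    rw [hsum] at hs ⊢
    have hlt : (T.erase i₀).card < n := by
      rw [Finset.card_erase_of_mem hi₀]
      have := Finset.card_pos.mpr ⟨i₀, hi₀⟩
      omega
    exact ih _ hlt (T.erase i₀) u rfl hs
  · push Not at hzero
    have hTne : T.Nonempty := by
      by_contra h
      rw [Finset.not_nonempty_iff_eq_empty] at h
      rw [h, Finset.sum_empty] at hs
      exact hs rfl
    have hdiv : ∀ i ∈ T, ∃ a : ℤ, v.ord (j (u i)) = e * a := fun i hi => hdvd (u i) (hzero i hi)
    choose! α hα using hdiv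
    obtain ⟨i₀, hi₀, hmin⟩ := Finset.exists_min_image T α hTne
    have hu'ne : ∀ i ∈ T, u i * t₀ ^ (-α i₀) ≠ 0 := fun i hi =>
      mul_ne_zero (hzero i hi) (zpow_ne_zero _ ht₀)
    have hu'ord : ∀ i ∈ T, v.ord (j (u i * t₀ ^ (-α i₀))) = e * (α i - α i₀) := by
      intro i hi
      rw [map_mul, map_zpow₀, v.ord_mul ((map_ne_zero j).mpr (hzero i hi)) (zpow_ne_zero _ hjt),
        v.ord_zpow, hte, hα i hi]
      ring
    have hu'mem : ∀ i ∈ T, j (u i * t₀ ^ (-α i₀)) ∈ v.toValuationSubring := fun i hi =>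
      mem_of_ord_nonneg v (by
        rw [hu'ord i hi]
        exact mul_nonneg he.le (sub_nonneg.mpr (hmin i hi)))
    have hs_eq : ∑ i ∈ T, algebraMap Ω M (c i) * j (u i)
        = j t₀ ^ (α i₀) * ∑ i ∈ T, algebraMap Ω M (c i) * j (u i * t₀ ^ (-α i₀)) := by
      rw [Finset.mul_sum]
      refine Finset.sum_congr rfl fun i _ => ?_
      rw [map_mul, map_zpow₀, zpow_neg]
      have := zpow_ne_zero (α i₀) hjt
      field_simp
    have hs'S : (∑ i ∈ T, algebraMap Ω M (c i) * j (u i * t₀ ^ (-α i₀)))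
        ∈ Sreg Ω j v.toValuationSubring :=
      Subalgebra.sum_mem _ fun i hi => Subalgebra.mul_mem _ (Subalgebra.algebraMap_mem _ _)
        (Algebra.subset_adjoin ⟨⟨_, rfl⟩, hu'mem i hi⟩)
    by_cases hunit : (∑ i ∈ T, algebraMap Ω M (c i) * j (u i * t₀ ^ (-α i₀)))
        ∉ v.toValuationSubring.nonunits
    · exact ⟨α i₀, _, hs'S, hunit, hs_eq⟩
    · rw [not_not] at hunit
      -- residues in `k`
      have hres : ∀ i ∈ T, ∃ b : k, ev v hdeg (j (u i * t₀ ^ (-α i₀))) = ι b := by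
        intro i hi
        obtain ⟨b, hb⟩ := exists_residue_alg ι j hj x₀ halg v hv (hu'mem i hi)
        refine ⟨b, ?_⟩
        rw [map_sub, hj] at hb
        have h1 := (mem_nonunits_iff_ev v hdeg
          (sub_mem (hu'mem i hi) (v.algebraMap_mem' _))).mp hb
        rw [ev_sub hdeg (hu'mem i hi) (v.algebraMap_mem' _), ev_const] at h1
        exact sub_eq_zero.mp h1
      choose! β hβ using hres
      have hβ₀ : β i₀ ≠ 0 := by
        intro h0
        have h1 := hβ i₀ hi₀
        rw [h0, map_zero, ev_eq_zero_iff hdeg (hu'mem i₀ hi₀)] at h1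
        have h2 := hu'ord i₀ hi₀
        rw [sub_self, mul_zero] at h2
        rcases h1 with h1 | h1
        · exact hu'ne i₀ hi₀ ((map_eq_zero j).mp h1)
        · omega
      have hconst : ∑ i ∈ T, c i * ι (β i) = 0 := by
        have h1 := (mem_nonunits_iff_ev v hdeg (Sreg_mem j _ v.algebraMap_mem' hs'S)).mp hunit
        rw [ev_sum' v hdeg T _ fun i hi =>
          mul_mem (v.algebraMap_mem' _) (hu'mem i hi)] at h1
        rw [← h1]
        refine Finset.sum_congr rfl fun i hi => ?_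
        rw [ev_const_mul hdeg _ (hu'mem i hi), hβ i hi]
      -- eliminate `i₀`
      have hs'' : ∑ i ∈ T, algebraMap Ω M (c i) * j (u i * t₀ ^ (-α i₀))
          = ∑ i ∈ T.erase i₀, algebraMap Ω M (c i) *
              j (u i * t₀ ^ (-α i₀) - algebraMap k Fk (β i / β i₀) * (u i₀ * t₀ ^ (-α i₀))) := by
        have hc0 : c i₀ * ι (β i₀) = -∑ i ∈ T.erase i₀, c i * ι (β i) := by
          rw [← Finset.add_sum_erase T _ hi₀] at hconst
          exact eq_neg_of_add_eq_zero_left hconst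
        have hιβ : ι (β i₀) ≠ 0 := (map_ne_zero ι).mpr hβ₀
        have hc0' : c i₀ = -∑ i ∈ T.erase i₀, c i * ι (β i / β i₀) := by
          have : c i₀ = (c i₀ * ι (β i₀)) * (ι (β i₀))⁻¹ := by field_simp
          rw [this, hc0, neg_mul, Finset.sum_mul]
          congr 1
          refine Finset.sum_congr rfl fun i _ => ?_
          rw [map_div₀]
          field_simp
        rw [← Finset.add_sum_erase T _ hi₀]
        simp only [map_sub, map_mul, hj, mul_sub]
        rw [Finset.sum_sub_distrib]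
        have : ∑ i ∈ T.erase i₀, algebraMap Ω M (c i) *
            (algebraMap Ω M (ι (β i / β i₀)) * (j (u i₀) * j (t₀ ^ (-α i₀))))
            = -(algebraMap Ω M (c i₀) * (j (u i₀) * j (t₀ ^ (-α i₀)))) := by
          rw [hc0', map_neg, map_sum, neg_mul, neg_neg, Finset.sum_mul]
          refine Finset.sum_congr rfl fun i _ => ?_
          rw [map_mul]
          ring
        rw [this]
        ring
      have hs'0 : ∑ i ∈ T, algebraMap Ω M (c i) * j (u i * t₀ ^ (-α i₀)) ≠ 0 := by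
        intro h
        apply hs
        rw [hs_eq, h, mul_zero]
      have hlt : (T.erase i₀).card < n := by
        rw [Finset.card_erase_of_mem hi₀]
        have := Finset.card_pos.mpr ⟨i₀, hi₀⟩
        omega
      rw [hs''] at hs'0
      obtain ⟨a', s'', hs''S, hs''u, hs''eq⟩ := ih _ hlt (T.erase i₀) _ rfl hs'0
      refine ⟨α i₀ + a', s'', hs''S, hs''u, ?_⟩
      rw [hs_eq, hs'', hs''eq, zpow_add₀ hjt, mul_assoc]

omit [Algebra k Fk] in
/-- Elements of `Ω[j (Fk)]` are finite `Ω`-combinations of elements of `j (Fk)`. -/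
theorem exists_comb {s : M} (hs : s ∈ Algebra.adjoin Ω (Set.range j)) :
    ∃ l : Fk →₀ Ω, s = ∑ u ∈ l.support, algebraMap Ω M (l u) * j u := by
  have h1 : (Submonoid.closure (Set.range j) : Set M) = Set.range j := by
    have : Set.range j = ((MonoidHom.mrange (j : Fk →* M) : Submonoid M) : Set M) := by
      ext y
      simp
    rw [this, Submonoid.closure_eq]
  have h2 : s ∈ Submodule.span Ω (Set.range j) := by
    have h3 := Algebra.adjoin_eq_span Ω (Set.range j)
    have hs' : s ∈ Subalgebra.toSubmodule (Algebra.adjoin Ω (Set.range j)) := hs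
    rw [h3, h1] at hs'
    exact hs'
  obtain ⟨l, hl⟩ := (Finsupp.mem_span_range_iff_exists_finsupp).mp h2
  refine ⟨l, ?_⟩
  rw [← hl, Finsupp.sum]
  refine Finset.sum_congr rfl fun u _ => ?_
  rw [Algebra.smul_def]

include hj halg in
/-- **Local lemma, algebraic places.**  If some nonzero element of `j (Fk)` vanishes at `v`, then
the logarithmic derivative (for an admissible derivation) of every nonzero quotient of elements of
`Ω[j (Fk)]` is regular at `v`. -/
theorem dlog_mem_of_alg [IsAlgClosed k] (hdeg : v.deg = 1)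
    (hv : ∃ u : Fk, u ≠ 0 ∧ j u ∈ v.toValuationSubring.nonunits)
    (d : Derivation ℤ M M)
    (hdc : ∀ c : Ω, ∃ c' : Ω, d (algebraMap Ω M c) = algebraMap Ω M c')
    (hdj : ∀ u : Fk, d (j u) = 0) {f : M} (hf : f ≠ 0)
    (hfq : ∃ p q : M, p ∈ Algebra.adjoin Ω (Set.range j) ∧ q ∈ Algebra.adjoin Ω (Set.range j) ∧
      q ≠ 0 ∧ f = p / q) :
    d f / f ∈ v.toValuationSubring := by
  obtain ⟨t₀, e, ht₀, he, hte, hdvd⟩ := exists_gen_alg j v hv
  have hjt : j t₀ ≠ 0 := (map_ne_zero j).mpr ht₀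
  have key : ∀ s : M, s ∈ Algebra.adjoin Ω (Set.range j) → s ≠ 0 →
      d s / s ∈ v.toValuationSubring := by
    intro s hs hs0
    obtain ⟨l, hl⟩ := exists_comb j hs
    rw [hl] at hs0
    obtain ⟨a, s', hs'S, hs'u, hs'eq⟩ := alg_core ι j hj x₀ halg v hdeg hv ht₀ he hte hdvd
      (fun u => l u) _ l.support (fun u => u) rfl hs0
    have hs'0 : s' ≠ 0 := by
      rintro rfl
      rw [mul_zero] at hs'eq
      exact hs0 hs'eq
    rw [hl, hs'eq, dlog_mul d (zpow_ne_zero _ hjt) hs'0,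
      dlog_of_d_eq_zero d (d_zpow_eq_zero d (hdj t₀) a), zero_add]
    exact dlog_mem_of_Sreg j _ v.algebraMap_mem' d hdc hdj hs'S hs'u
  obtain ⟨p, q, hp, hq, hq0, rfl⟩ := hfq
  have hp0 : p ≠ 0 := by
    rintro rfl
    rw [zero_div] at hf
    exact hf rfl
  rw [dlog_div d hp0 hq0]
  exact sub_mem (key p hp hp0) (key q hq hq0)

end Alg

end Fermat.Agent.S29.H42
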