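/-
S29 / S42 Program A, descent `ℂ → ℚ̄` by derivations (DESC-D), helper42.
Local lemma, part 2: the TRANSCENDENTAL places (no nonzero element of `j (Fk)` vanishes at `v`).

Main result `dlog_tr`: for an admissible derivation `d` and `f ≠ 0`,
`-1 ≤ v.ord (d f / f)`, and `d f / f` is regular at `v` if `v.ord f = 0`.
-/
import Fermat.Agent.S29.H42.DLocalAlg

set_option autoImplicit false

open AlgebraicCurve Polynomial

noncomputable section

namespace Fermat.Agent.S29.H42

open Fermat.Agent.S24 Fermat.Agent.S18.H29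

/-- An algebraic element over a domain of characteristic zero is a root of a polynomial whose
derivative does not vanish at it. -/
theorem exists_sep_poly {R A : Type*} [CommRing R] [IsDomain R] [CharZero R] [Field A]
    [Algebra R A] (hinj : Function.Injective (algebraMap R A)) {u : A} (hu : IsAlgebraic R u) :
    ∃ p : R[X], aeval u p = 0 ∧ aeval u (derivative p) ≠ 0 := by
  classical
  have hex : ∃ n : ℕ, ∃ p : R[X], p ≠ 0 ∧ aeval u p = 0 ∧ p.natDegree = n := by
    obtain ⟨p, hp0, hp⟩ := hu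
    exact ⟨_, p, hp0, hp, rfl⟩
  obtain ⟨p, hp0, hp, hdeg⟩ := Nat.find_spec hex
  refine ⟨p, hp, fun hder => ?_⟩
  have hpos : 0 < p.natDegree := by
    by_contra h
    have h0 : p.natDegree = 0 := by omega
    have hpC := Polynomial.eq_C_of_natDegree_eq_zero h0
    rw [hpC, aeval_C] at hp
    have hc : p.coeff 0 = 0 := hinj (by rw [hp, map_zero])
    apply hp0
    rw [hpC, hc, C_0]
  have hd0 : derivative p ≠ 0 := by
    intro h
    have := Polynomial.derivative_eq_zero.mp h
    omega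
  have hlt : (derivative p).natDegree < Nat.find hex := by
    rw [← hdeg]
    exact Polynomial.natDegree_derivative_lt (by omega)
  exact Nat.find_min hex hlt ⟨derivative p, hd0, hder, rfl⟩

variable {k Ω Fk M : Type*} [Field k] [Field Ω] [Field Fk] [Field M] [Algebra k Fk] [Algebra Ω M]

section Tr

variable (ι : k →+* Ω) (j : Fk →+* M)
  (hj : ∀ a : k, j (algebraMap k Fk a) = algebraMap Ω M (ι a))
  (x₀ : Fk) (halg : ∀ y : Fk, IsAlgebraic (Algebra.adjoin k {x₀}) y)
  (v : Place Ω M) (hdeg : v.deg = 1)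
  (hv : ∀ u : Fk, u ≠ 0 → j u ∉ v.toValuationSubring.nonunits)

include hv in
omit [Algebra k Fk] in
theorem j_mem_of_tr (u : Fk) : j u ∈ v.toValuationSubring := by
  rcases eq_or_ne u 0 with rfl | hu
  · rw [map_zero]; exact zero_mem _
  · by_contra h
    apply hv u⁻¹ (inv_ne_zero hu)
    rw [map_inv₀, ValuationSubring.mem_nonunits_iff_or]
    right
    rw [inv_inv]
    exact h

/-- The residue embedding `Fk → Ω` at a transcendental place. -/
def epsTr : Fk →+* Ω where
  toFun u := ev v hdeg (j u)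
  map_one' := by rw [map_one]; exact ev_one hdeg
  map_mul' a b := by
    rw [map_mul]
    exact ev_mul hdeg (j_mem_of_tr j v hv a) (j_mem_of_tr j v hv b)
  map_zero' := by
    rw [map_zero]
    have := ev_const (P := v) hdeg (0 : Ω)
    rwa [map_zero] at this
  map_add' a b := by
    rw [map_add]
    exact ev_add hdeg (j_mem_of_tr j v hv a) (j_mem_of_tr j v hv b)

omit [Algebra k Fk] in
theorem epsTr_apply (u : Fk) : epsTr j v hdeg hv u = ev v hdeg (j u) := rfl

include hj in
theorem epsTr_algebraMap (a : k) : epsTr j v hdeg hv (algebraMap k Fk a) = ι a := by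
  rw [epsTr_apply, hj, ev_const]

include hv in
omit [Algebra k Fk] in
theorem j_mem_Sreg (u : Fk) : j u ∈ Sreg Ω j v.toValuationSubring :=
  Algebra.subset_adjoin ⟨⟨u, rfl⟩, j_mem_of_tr j v hv u⟩

theorem ev_zero' : ev v hdeg (0 : M) = 0 := by
  have := ev_const (P := v) hdeg (0 : Ω)
  rwa [map_zero] at this

/-- `ev y ≠ 0` means `y` is a unit at `v`. -/
theorem ord_eq_zero_of_ev_ne {y : M} (hy : y ∈ v.toValuationSubring) (h : ev v hdeg y ≠ 0) :
    y ≠ 0 ∧ v.ord y = 0 := by
  rw [Ne, ev_eq_zero_iff hdeg hy, not_or] at h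
  exact ⟨h.1, le_antisymm (not_lt.mp h.2) (H52.ord_nonneg_of_mem v hy)⟩

include hj in
/-- Claim 0: on `k[x₀]`, `j - ε` takes values in `t · S`. -/
theorem tr_claim0 (a : Fk) (ha : a ∈ Algebra.adjoin k {x₀}) :
    ∃ A : M, A ∈ Sreg Ω j v.toValuationSubring ∧
      j a - algebraMap Ω M (epsTr j v hdeg hv a)
        = (j x₀ - algebraMap Ω M (epsTr j v hdeg hv x₀)) * A := by
  induction ha using Algebra.adjoin_induction with
  | mem y hy =>
    rw [Set.mem_singleton_iff] at hy
    subst hy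
    exact ⟨1, Subalgebra.one_mem _, (mul_one _).symm⟩
  | algebraMap a =>
    refine ⟨0, Subalgebra.zero_mem _, ?_⟩
    rw [epsTr_algebraMap ι j hj, hj, sub_self, mul_zero]
  | add x y _ _ hx hy =>
    obtain ⟨A, hA, hAe⟩ := hx
    obtain ⟨B, hB, hBe⟩ := hy
    refine ⟨A + B, Subalgebra.add_mem _ hA hB, ?_⟩
    rw [map_add, map_add, map_add, mul_add, ← hAe, ← hBe]
    ring
  | mul x y _ _ hx hy =>
    obtain ⟨A, hA, hAe⟩ := hx
    obtain ⟨B, hB, hBe⟩ := hy
    refine ⟨j x * B + algebraMap Ω M (epsTr j v hdeg hv y) * A,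
      Subalgebra.add_mem _ (Subalgebra.mul_mem _ (j_mem_Sreg j v hv x) hB)
        (Subalgebra.mul_mem _ (Subalgebra.algebraMap_mem _ _) hA), ?_⟩
    rw [map_mul, map_mul, map_mul, mul_add, ← mul_assoc, ← mul_assoc,
      mul_comm _ (j x), mul_assoc, ← hBe,
      mul_comm (j x₀ - algebraMap Ω M (epsTr j v hdeg hv x₀)) (algebraMap Ω M _), mul_assoc, ← hAe]
    ring

include hj halg in
/-- Claim 1: `j u - ε u ∈ t · S_𝔭` for every `u ∈ Fk` (Hensel-type step). -/
theorem tr_claim1 [CharZero k] (u : Fk) :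
    ∃ A B : M, A ∈ Sreg Ω j v.toValuationSubring ∧ B ∈ Sreg Ω j v.toValuationSubring ∧
      ev v hdeg B ≠ 0 ∧
      (j u - algebraMap Ω M (epsTr j v hdeg hv u)) * B
        = (j x₀ - algebraMap Ω M (epsTr j v hdeg hv x₀)) * A := by
  classical
  have : CharZero Fk := charZero_of_injective_algebraMap (algebraMap k Fk).injective
  obtain ⟨p, hp, hp'⟩ := exists_sep_poly (R := ↥(Algebra.adjoin k {x₀})) (A := Fk)
    Subtype.val_injective (halg u)
  have hq0 : (p.map ((epsTr j v hdeg hv).comp (algebraMap ↥(Algebra.adjoin k {x₀}) Fk))).eval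
      (epsTr j v hdeg hv u) = 0 := by
    rw [eval_map, ← hom_eval₂, ← aeval_def, hp, map_zero]
  have hq' : (derivative (p.map ((epsTr j v hdeg hv).comp
      (algebraMap ↥(Algebra.adjoin k {x₀}) Fk)))).eval (epsTr j v hdeg hv u) ≠ 0 := by
    rw [derivative_map, eval_map, ← hom_eval₂, ← aeval_def]
    exact (map_ne_zero (epsTr j v hdeg hv)).mpr hp'
  have hP1 : (p.map (j.comp (algebraMap ↥(Algebra.adjoin k {x₀}) Fk))).eval (j u) = 0 := by
    rw [eval_map, ← hom_eval₂, ← aeval_def, hp, map_zero]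
  have hcoef : ∀ i : ℕ, ∃ A : M, A ∈ Sreg Ω j v.toValuationSubring ∧
      j (algebraMap ↥(Algebra.adjoin k {x₀}) Fk (p.coeff i))
        - algebraMap Ω M (epsTr j v hdeg hv (algebraMap ↥(Algebra.adjoin k {x₀}) Fk (p.coeff i)))
        = (j x₀ - algebraMap Ω M (epsTr j v hdeg hv x₀)) * A :=
    fun i => tr_claim0 ι j hj x₀ v hdeg hv _ (p.coeff i).2
  choose Ac hAcS hAc using hcoef
  set q : Polynomial Ω := p.map ((epsTr j v hdeg hv).comp (algebraMap ↥(Algebra.adjoin k {x₀}) Fk))
    with hq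
  have hdiff : (p.map (j.comp (algebraMap ↥(Algebra.adjoin k {x₀}) Fk))).eval (j u)
      - (q.map (algebraMap Ω M)).eval (j u)
      = (j x₀ - algebraMap Ω M (epsTr j v hdeg hv x₀)) *
          ∑ i ∈ Finset.range (p.natDegree + 1), Ac i * j u ^ i := by
    rw [eval_map, hq, map_map, eval_map, eval₂_eq_sum_range, eval₂_eq_sum_range,
      ← Finset.sum_sub_distrib, Finset.mul_sum]
    refine Finset.sum_congr rfl fun i _ => ?_
    simp only [RingHom.comp_apply]
    rw [← sub_mul, hAc i, mul_assoc]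
  -- binomial expansion in the ring `S`
  obtain ⟨K, hK⟩ := Polynomial.binomExpansion
    (q.map (algebraMap Ω ↥(Sreg Ω j v.toValuationSubring)))
    (algebraMap Ω ↥(Sreg Ω j v.toValuationSubring) (epsTr j v hdeg hv u))
    ((⟨j u, j_mem_Sreg j v hv u⟩ : ↥(Sreg Ω j v.toValuationSubring))
      - algebraMap Ω ↥(Sreg Ω j v.toValuationSubring) (epsTr j v hdeg hv u))
  have e1 : eval (algebraMap Ω ↥(Sreg Ω j v.toValuationSubring) (epsTr j v hdeg hv u))
      (map (algebraMap Ω ↥(Sreg Ω j v.toValuationSubring)) q) = 0 := by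
    rw [eval_map, eval₂_at_apply, hq0, map_zero]
  have e2 : eval (algebraMap Ω ↥(Sreg Ω j v.toValuationSubring) (epsTr j v hdeg hv u))
      (derivative (map (algebraMap Ω ↥(Sreg Ω j v.toValuationSubring)) q))
      = algebraMap Ω ↥(Sreg Ω j v.toValuationSubring)
          (eval (epsTr j v hdeg hv u) (derivative q)) := by
    rw [derivative_map, eval_map, eval₂_at_apply]
  rw [add_sub_cancel, e1, e2, zero_add, eval_map] at hK
  have hK'' : (q.map (algebraMap Ω M)).eval (j u)
      = algebraMap Ω M ((derivative q).eval (epsTr j v hdeg hv u))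
          * (j u - algebraMap Ω M (epsTr j v hdeg hv u))
        + (K : M) * (j u - algebraMap Ω M (epsTr j v hdeg hv u)) ^ 2 := by
    have h2 := congrArg (fun y : ↥(Sreg Ω j v.toValuationSubring) => (y : M)) hK
    have h3 := hom_eval₂ q (algebraMap Ω ↥(Sreg Ω j v.toValuationSubring))
      ((Sreg Ω j v.toValuationSubring).val : ↥(Sreg Ω j v.toValuationSubring) →+* M)
      (⟨j u, j_mem_Sreg j v hv u⟩ : ↥(Sreg Ω j v.toValuationSubring))
    rw [eval_map]
    simp only [AlgHom.coe_toRingHom, Subalgebra.coe_val, AlgHom.comp_algebraMap] at h3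
    rw [← h3, h2]
    simp
  refine ⟨-(∑ i ∈ Finset.range (p.natDegree + 1), Ac i * j u ^ i),
    algebraMap Ω M ((derivative q).eval (epsTr j v hdeg hv u))
      + (K : M) * (j u - algebraMap Ω M (epsTr j v hdeg hv u)), ?_, ?_, ?_, ?_⟩
  · exact Subalgebra.neg_mem _ (Subalgebra.sum_mem _ fun i _ =>
      Subalgebra.mul_mem _ (hAcS i) (Subalgebra.pow_mem _ (j_mem_Sreg j v hv u) i))
  · exact Subalgebra.add_mem _ (Subalgebra.algebraMap_mem _ _)
      (Subalgebra.mul_mem _ K.2
        (Subalgebra.sub_mem _ (j_mem_Sreg j v hv u) (Subalgebra.algebraMap_mem _ _)))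
  · have hju := j_mem_of_tr j v hv u
    have hKO : (K : M) ∈ v.toValuationSubring := Sreg_mem j _ v.algebraMap_mem' K.2
    have hsubO : j u - algebraMap Ω M (epsTr j v hdeg hv u) ∈ v.toValuationSubring :=
      sub_mem hju (v.algebraMap_mem' _)
    rw [ev_add hdeg (v.algebraMap_mem' _) (mul_mem hKO hsubO), ev_const,
      ev_mul hdeg hKO hsubO, ev_sub hdeg hju (v.algebraMap_mem' _), ev_const,
      ← epsTr_apply j v hdeg hv u, sub_self, mul_zero, add_zero]
    exact hq'
  · rw [hP1, zero_sub, hK''] at hdiff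
    rw [mul_neg, ← hdiff]
    ring

include hj halg in
/-- Claim 2: `s - s(v) ∈ t · S_𝔭` for every `s ∈ S`. -/
theorem tr_claim2 [CharZero k] {s : M} (hs : s ∈ Sreg Ω j v.toValuationSubring) :
    ∃ A B : M, A ∈ Sreg Ω j v.toValuationSubring ∧ B ∈ Sreg Ω j v.toValuationSubring ∧
      ev v hdeg B ≠ 0 ∧
      (s - algebraMap Ω M (ev v hdeg s)) * B
        = (j x₀ - algebraMap Ω M (epsTr j v hdeg hv x₀)) * A := by
  have hsO : ∀ {y : M}, y ∈ Sreg Ω j v.toValuationSubring → y ∈ v.toValuationSubring :=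
    fun hy => Sreg_mem j _ v.algebraMap_mem' hy
  have hmem : s ∈ Sreg Ω j v.toValuationSubring := hs
  unfold Sreg at hs
  induction hs using Algebra.adjoin_induction with
  | mem y hy =>
    obtain ⟨⟨u, rfl⟩, -⟩ := hy
    exact tr_claim1 ι j hj x₀ halg v hdeg hv u
  | algebraMap c =>
    refine ⟨0, 1, Subalgebra.zero_mem _, Subalgebra.one_mem _, ?_, ?_⟩
    · rw [ev_one hdeg]; exact one_ne_zero
    · rw [ev_const, sub_self, zero_mul, mul_zero]
  | add x y hx hy ihx ihy =>
    have hxS : x ∈ Sreg Ω j v.toValuationSubring := hx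
    have hyS : y ∈ Sreg Ω j v.toValuationSubring := hy
    obtain ⟨A, B, hA, hB, hB0, hAB⟩ := ihx hxS
    obtain ⟨A', B', hA', hB', hB0', hAB'⟩ := ihy hyS
    refine ⟨A * B' + A' * B, B * B', Subalgebra.add_mem _ (Subalgebra.mul_mem _ hA hB')
      (Subalgebra.mul_mem _ hA' hB), Subalgebra.mul_mem _ hB hB', ?_, ?_⟩
    · rw [ev_mul hdeg (hsO hB) (hsO hB')]
      exact mul_ne_zero hB0 hB0'
    · rw [ev_add hdeg (hsO hxS) (hsO hyS), map_add]
      have e : (x + y - (algebraMap Ω M (ev v hdeg x) + algebraMap Ω M (ev v hdeg y))) * (B * B')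
          = ((x - algebraMap Ω M (ev v hdeg x)) * B) * B'
            + ((y - algebraMap Ω M (ev v hdeg y)) * B') * B := by
        ring
      rw [e, hAB, hAB']
      ring
  | mul x y hx hy ihx ihy =>
    have hxS : x ∈ Sreg Ω j v.toValuationSubring := hx
    have hyS : y ∈ Sreg Ω j v.toValuationSubring := hy
    obtain ⟨A, B, hA, hB, hB0, hAB⟩ := ihx hxS
    obtain ⟨A', B', hA', hB', hB0', hAB'⟩ := ihy hyS
    refine ⟨x * A' * B + algebraMap Ω M (ev v hdeg y) * A * B', B * B',
      Subalgebra.add_mem _ (Subalgebra.mul_mem _ (Subalgebra.mul_mem _ hxS hA') hB)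
        (Subalgebra.mul_mem _ (Subalgebra.mul_mem _ (Subalgebra.algebraMap_mem _ _) hA) hB'),
      Subalgebra.mul_mem _ hB hB', ?_, ?_⟩
    · rw [ev_mul hdeg (hsO hB) (hsO hB')]
      exact mul_ne_zero hB0 hB0'
    · rw [ev_mul hdeg (hsO hxS) (hsO hyS), map_mul]
      have e : (x * y - algebraMap Ω M (ev v hdeg x) * algebraMap Ω M (ev v hdeg y)) * (B * B')
          = x * ((y - algebraMap Ω M (ev v hdeg y)) * B') * B
            + algebraMap Ω M (ev v hdeg y) * ((x - algebraMap Ω M (ev v hdeg x)) * B) * B' := by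
        ring
      rw [e, hAB, hAB']
      ring

include hj halg in
/-- Claim 3: every nonzero element of `S` is a power of `t` times a quotient of units in `S`. -/
theorem tr_claim3 [CharZero k] (htt : j x₀ - algebraMap Ω M (epsTr j v hdeg hv x₀) ≠ 0) :
    ∀ (n : ℕ) (s : M), s ∈ Sreg Ω j v.toValuationSubring → s ≠ 0 → (v.ord s).toNat = n →
      ∃ (N : ℕ) (p q : M), p ∈ Sreg Ω j v.toValuationSubring ∧
        q ∈ Sreg Ω j v.toValuationSubring ∧ ev v hdeg p ≠ 0 ∧ ev v hdeg q ≠ 0 ∧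
        s * q = (j x₀ - algebraMap Ω M (epsTr j v hdeg hv x₀)) ^ N * p := by
  have hsO : ∀ {y : M}, y ∈ Sreg Ω j v.toValuationSubring → y ∈ v.toValuationSubring :=
    fun hy => Sreg_mem j _ v.algebraMap_mem' hy
  have httO : j x₀ - algebraMap Ω M (epsTr j v hdeg hv x₀) ∈ v.toValuationSubring :=
    sub_mem (j_mem_of_tr j v hv x₀) (v.algebraMap_mem' _)
  have httpos : 0 < v.ord (j x₀ - algebraMap Ω M (epsTr j v hdeg hv x₀)) := by
    have h := sub_ev_spec (P := v) hdeg (j_mem_of_tr j v hv x₀)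
    rcases h with h | h
    · exact absurd h htt
    · exact h
  intro n
  induction n using Nat.strong_induction_on with
  | _ n ih =>
  intro s hs hs0 hn
  by_cases hev : ev v hdeg s ≠ 0
  · refine ⟨0, s, 1, hs, Subalgebra.one_mem _, hev, ?_, ?_⟩
    · rw [ev_one hdeg]; exact one_ne_zero
    · rw [pow_zero, mul_one, one_mul]
  · rw [not_not] at hev
    obtain ⟨A, B, hA, hB, hB0, hAB⟩ := tr_claim2 ι j hj x₀ halg v hdeg hv hs
    rw [hev, map_zero, sub_zero] at hAB
    obtain ⟨hBne, hBord⟩ := ord_eq_zero_of_ev_ne v hdeg (hsO hB) hB0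
    have hA0 : A ≠ 0 := by
      rintro rfl
      rw [mul_zero] at hAB
      exact (mul_ne_zero hs0 hBne) hAB
    have hordA : v.ord A = v.ord s - v.ord (j x₀ - algebraMap Ω M (epsTr j v hdeg hv x₀)) := by
      have h1 := congrArg v.ord hAB
      rw [v.ord_mul hs0 hBne, v.ord_mul htt hA0, hBord] at h1
      omega
    have hAnn : 0 ≤ v.ord A := H52.ord_nonneg_of_mem v (hsO hA)
    have hlt : (v.ord A).toNat < n := by omega
    obtain ⟨N, p, q, hp, hq, hp0, hq0, hpq⟩ := ih _ hlt A hA hA0 rfl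
    refine ⟨N + 1, p, B * q, hp, Subalgebra.mul_mem _ hB hq, hp0, ?_, ?_⟩
    · rw [ev_mul hdeg (hsO hB) (hsO hq)]
      exact mul_ne_zero hB0 hq0
    · rw [← mul_assoc, hAB, mul_assoc, hpq, pow_succ]
      ring

include hj halg hdeg hv in
/-- **Local lemma, transcendental places.**  If no nonzero element of `j (Fk)` vanishes at `v`,
then for an admissible derivation `d` the logarithmic derivative `d f / f` has at most a simple
pole at `v`, and is regular at `v` if `v.ord f = 0`. -/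
theorem dlog_tr [CharZero k] (htt : ∀ c : Ω, j x₀ ≠ algebraMap Ω M c)
    (hgen : ∀ f : M, ∃ p q : M, p ∈ Algebra.adjoin Ω (Set.range j) ∧
      q ∈ Algebra.adjoin Ω (Set.range j) ∧ q ≠ 0 ∧ f = p / q)
    (d : Derivation ℤ M M)
    (hdc : ∀ c : Ω, ∃ c' : Ω, d (algebraMap Ω M c) = algebraMap Ω M c')
    (hdj : ∀ u : Fk, d (j u) = 0) {f : M} (hf : f ≠ 0) :
    -1 ≤ v.ord (d f / f) ∧ (v.ord f = 0 → d f / f ∈ v.toValuationSubring) := by
  have ht0 : j x₀ - algebraMap Ω M (epsTr j v hdeg hv x₀) ≠ 0 := sub_ne_zero.mpr (htt _)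
  have hsO : ∀ {y : M}, y ∈ Sreg Ω j v.toValuationSubring → y ∈ v.toValuationSubring :=
    fun hy => Sreg_mem j _ v.algebraMap_mem' hy
  have httO : j x₀ - algebraMap Ω M (epsTr j v hdeg hv x₀) ∈ v.toValuationSubring :=
    sub_mem (j_mem_of_tr j v hv x₀) (v.algebraMap_mem' _)
  have httpos : 0 < v.ord (j x₀ - algebraMap Ω M (epsTr j v hdeg hv x₀)) := by
    have h := sub_ev_spec (P := v) hdeg (j_mem_of_tr j v hv x₀)
    rcases h with h | h
    · exact absurd h ht0
    · exact h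
  have hSle : Algebra.adjoin Ω (Set.range j) ≤ Sreg Ω j v.toValuationSubring :=
    Algebra.adjoin_mono fun y hy => ⟨hy, by obtain ⟨u, rfl⟩ := hy; exact j_mem_of_tr j v hv u⟩
  set t := j x₀ - algebraMap Ω M (epsTr j v hdeg hv x₀) with ht
  have key : ∀ s : M, s ∈ Sreg Ω j v.toValuationSubring → s ≠ 0 →
      ∃ (N : ℕ) (r : M), r ∈ v.toValuationSubring ∧ d s / s = (N : M) * (d t / t) + r ∧
        v.ord s = N * v.ord t := by
    intro s hs hs0
    obtain ⟨N, p, q, hp, hq, hp0, hq0, hpq⟩ :=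
      tr_claim3 ι j hj x₀ halg v hdeg hv ht0 _ s hs hs0 rfl
    obtain ⟨hpne, hpord⟩ := ord_eq_zero_of_ev_ne v hdeg (hsO hp) hp0
    obtain ⟨hqne, hqord⟩ := ord_eq_zero_of_ev_ne v hdeg (hsO hq) hq0
    have hs_eq : s = t ^ N * p / q := by
      rw [← hpq]
      field_simp
    refine ⟨N, d p / p - d q / q, sub_mem
      (dlog_mem_of_Sreg j _ v.algebraMap_mem' d hdc hdj hp
        fun h => hp0 ((mem_nonunits_iff_ev v hdeg (hsO hp)).mp h))
      (dlog_mem_of_Sreg j _ v.algebraMap_mem' d hdc hdj hq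
        fun h => hq0 ((mem_nonunits_iff_ev v hdeg (hsO hq)).mp h)), ?_, ?_⟩
    · rw [hs_eq, dlog_div d (mul_ne_zero (pow_ne_zero N ht0) hpne) hqne,
        dlog_mul d (pow_ne_zero N ht0) hpne, dlog_pow d ht0]
      ring
    · have h1 := congrArg v.ord hpq
      rw [v.ord_mul hs0 hqne, v.ord_mul (pow_ne_zero N ht0) hpne, ord_npow, hpord, hqord] at h1
      linarith
  have hord_t : v.ord t = 1 := by
    obtain ⟨π, hπ⟩ := IsDiscreteValuationRing.exists_irreducible v.toValuationSubring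
    have hπ1 := v.ord_coe_irreducible hπ
    have hπ0 : (π : M) ≠ 0 := by
      intro h
      rw [h] at hπ1
      simp at hπ1
    obtain ⟨p, q, hp, hq, hq0, hπeq⟩ := hgen (π : M)
    have hp0 : p ≠ 0 := by
      rintro rfl
      rw [zero_div] at hπeq
      exact hπ0 hπeq
    obtain ⟨N, -, -, -, hN⟩ := key p (hSle hp) hp0
    obtain ⟨N', -, -, -, hN'⟩ := key q (hSle hq) hq0
    have h1 : v.ord (π : M) = v.ord p - v.ord q := by rw [hπeq, ord_div' v hp0 hq0]
    rw [hπ1, hN, hN'] at h1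
    have hdvd : v.ord t ∣ 1 := ⟨(N : ℤ) - N', by rw [h1]; ring⟩
    exact Int.eq_one_of_dvd_one httpos.le hdvd
  obtain ⟨c', hc'⟩ := hdc (epsTr j v hdeg hv x₀)
  have hdt : d t ∈ v.toValuationSubring := by
    rw [ht, map_sub, hdj, hc', zero_sub]
    exact neg_mem (v.algebraMap_mem' _)
  obtain ⟨p, q, hp, hq, hq0, rfl⟩ := hgen f
  have hp0 : p ≠ 0 := by
    rintro rfl
    rw [zero_div] at hf
    exact hf rfl
  obtain ⟨N, r, hr, hdl, hN⟩ := key p (hSle hp) hp0
  obtain ⟨N', r', hr', hdl', hN'⟩ := key q (hSle hq) hq0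
  have hdlog : d (p / q) / (p / q) = (((N : ℤ) - N' : ℤ) : M) * (d t / t) + (r - r') := by
    rw [dlog_div d hp0 hq0, hdl, hdl']
    push_cast
    ring
  have hordf : v.ord (p / q) = (N : ℤ) - N' := by
    rw [ord_div' v hp0 hq0, hN, hN', hord_t]
    ring
  constructor
  · by_cases h0 : d (p / q) / (p / q) = 0
    · rw [h0, Place.ord_zero]
      norm_num
    · have hmem : t * (d (p / q) / (p / q)) ∈ v.toValuationSubring := by
        have e : t * (d (p / q) / (p / q)) = (((N : ℤ) - N' : ℤ) : M) * d t + t * (r - r') := by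
          rw [hdlog]
          field_simp
        rw [e]
        exact add_mem (mul_mem (intCast_mem _ _) hdt) (mul_mem httO (sub_mem hr hr'))
      have h2 := H52.ord_nonneg_of_mem v hmem
      rw [v.ord_mul ht0 h0, hord_t] at h2
      omega
  · intro hz
    rw [hordf] at hz
    rw [hdlog, hz]
    simp only [Int.cast_zero, zero_mul, zero_add]
    exact sub_mem hr hr'

end Tr

end Fermat.Agent.S29.H42
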