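/-
S29 / S42 Program A, descent `ℂ → ℚ̄` by derivations (DESC-D), helper42.
Global step (minimality argument).

Setting as in `DLocalAlg` / `DLocalTr`.  A place `v` of `M / Ω` is *transcendental* (`IsTr`) if no
nonzero element of `j (Fk)` vanishes at it.  If `m ∣ v.ord u` at every transcendental place, then
there is `g ≠ 0` such that `u * g ^ m` is an eigenvector of EVERY admissible derivation, with
constant eigenvalue (`exists_dlog_const`).
-/
import Fermat.Agent.S29.H42.DLocalTr
import Fermat.Agent.S24.Ord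
import Fermat.Agent.S24.H95.Degree

set_option autoImplicit false

open AlgebraicCurve

noncomputable section

namespace Fermat.Agent.S29.H42

open Fermat.Agent.S24 Fermat.Agent.S18.H29

variable {k Ω Fk M : Type*} [Field k] [Field Ω] [Field Fk] [Field M] [Algebra k Fk] [Algebra Ω M]

/-- A place of `M / Ω` at which no nonzero element of `j (Fk)` vanishes. -/
def IsTr (j : Fk →+* M) (v : Place Ω M) : Prop :=
  ∀ u : Fk, u ≠ 0 → j u ∉ v.toValuationSubring.nonunits

section Global

variable (ι : k →+* Ω) (j : Fk →+* M)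
  (hj : ∀ a : k, j (algebraMap k Fk a) = algebraMap Ω M (ι a))
  (x₀ : Fk) (halg : ∀ y : Fk, IsAlgebraic (Algebra.adjoin k {x₀}) y)
  (hdeg : ∀ v : Place Ω M, v.deg = 1)
  (hprin : ∀ f : M, f ≠ 0 → ∃ D : Place Ω M →₀ ℤ, (∀ P, D P = P.ord f) ∧
    (D.sum fun _ n => n) = 0)
  (htt : ∀ c : Ω, j x₀ ≠ algebraMap Ω M c)
  (hgen : ∀ f : M, ∃ p q : M, p ∈ Algebra.adjoin Ω (Set.range j) ∧
    q ∈ Algebra.adjoin Ω (Set.range j) ∧ q ≠ 0 ∧ f = p / q)

open Classical in
/-- the local parameter `x - x(v)` at a transcendental place (`1` elsewhere) -/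
def tv (v : Place Ω M) : M :=
  if h : IsTr j v then j x₀ - algebraMap Ω M (epsTr j v (hdeg v) h x₀) else 1

include htt in
omit [Algebra k Fk] in
theorem tv_ne_zero (v : Place Ω M) : tv j x₀ hdeg v ≠ 0 := by
  unfold tv
  split_ifs with h
  · exact sub_ne_zero.mpr (htt _)
  · exact one_ne_zero

omit [Algebra k Fk] in
theorem tv_mem (v w : Place Ω M) (hw : IsTr j w) : tv j x₀ hdeg v ∈ w.toValuationSubring := by
  unfold tv
  split_ifs with h
  · exact sub_mem (j_mem_of_tr j w hw x₀) (w.algebraMap_mem' _)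
  · exact one_mem _

include htt in
omit [Algebra k Fk] in
theorem tv_ord_pos (v : Place Ω M) (hv : IsTr j v) : 0 < v.ord (tv j x₀ hdeg v) := by
  unfold tv
  rw [dif_pos hv]
  have h := sub_ev_spec (P := v) (hdeg v) (j_mem_of_tr j v hv x₀)
  rcases h with h | h
  · exact absurd h (sub_ne_zero.mpr (htt _))
  · exact h

variable (m : ℕ) (u : M)

/-- `ord_v (u g^m) / m` -/
def Eg (g : M) (v : Place Ω M) : ℤ := v.ord u / (m : ℤ) + v.ord g

open Classical in
/-- `Eg` on transcendental places, `0` elsewhere -/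
def wg (g : M) (v : Place Ω M) : ℤ := if IsTr j v then Eg m u g v else 0

variable (Ω) in
/-- total transcendental degree of `(1/m) div (u g^m)` -/
def delta (g : M) : ℤ := ∑ᶠ v : Place Ω M, wg j m u g v

include hprin in
omit [Algebra k Fk] in
theorem wg_support_finite {g : M} : (Function.support (wg (Ω := Ω) j m u g)).Finite := by
  classical
  refine ((Finset.finite_toSet (dv hprin u).support).union
    (Finset.finite_toSet (dv hprin g).support)).subset ?_
  intro v hv
  rw [Function.mem_support] at hv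
  rw [Set.mem_union, Finset.mem_coe, Finset.mem_coe, Finsupp.mem_support_iff,
    Finsupp.mem_support_iff, dv_apply, dv_apply]
  by_contra hcon
  rw [not_or, not_not, not_not] at hcon
  apply hv
  unfold wg Eg
  rw [hcon.1, hcon.2]
  simp

include hprin htt hdeg in
omit [Algebra k Fk] in
theorem exists_good (hm : 0 < m) :
    ∃ g : M, g ≠ 0 ∧ ∀ v : Place Ω M, IsTr j v → 0 ≤ Eg m u g v := by
  classical
  refine ⟨∏ v ∈ (dv hprin u).support, tv j x₀ hdeg v ^ (-(v.ord u / (m : ℤ))).toNat, ?_,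
    fun w hw => ?_⟩
  · exact Finset.prod_ne_zero_iff.mpr fun v _ => pow_ne_zero _ (tv_ne_zero j x₀ hdeg htt v)
  · unfold Eg
    rw [Fermat.Agent.S24.ord_prod w _ _
      (fun v _ => pow_ne_zero _ (tv_ne_zero j x₀ hdeg htt v))]
    have hterm : ∀ v ∈ (dv hprin u).support,
        0 ≤ w.ord (tv j x₀ hdeg v ^ (-(v.ord u / (m : ℤ))).toNat) := fun v _ => by
      rw [Fermat.Agent.S24.ord_pow]
      exact mul_nonneg (Int.natCast_nonneg _)
        (H52.ord_nonneg_of_mem w (tv_mem j x₀ hdeg v w hw))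
    have hm' : (0 : ℤ) < (m : ℤ) := by exact_mod_cast hm
    by_cases hneg : w.ord u < 0
    · have hws : w ∈ (dv hprin u).support := by
        rw [Finsupp.mem_support_iff, dv_apply]
        omega
      have h1 := Finset.single_le_sum hterm hws
      rw [Fermat.Agent.S24.ord_pow] at h1
      have h2 := tv_ord_pos j x₀ hdeg htt w hw
      have h3 : w.ord u / (m : ℤ) < 0 := Int.ediv_neg_of_neg_of_pos hneg hm'
      have h4 : ((-(w.ord u / (m : ℤ))).toNat : ℤ) = -(w.ord u / (m : ℤ)) :=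
        Int.toNat_of_nonneg (by omega)
      rw [h4] at h1
      nlinarith
    · have h3 : 0 ≤ w.ord u / (m : ℤ) := Int.ediv_nonneg (by omega) hm'.le
      have := Finset.sum_nonneg hterm
      omega

include hprin hdeg in
omit [Algebra k Fk] in
/-- **Claim (L).**  For a minimal `g`, a function regular at the algebraic places and with poles
bounded by `E_g` at the transcendental places is constant. -/
theorem claimL {g : M} (hg0 : g ≠ 0) (hgood : ∀ v : Place Ω M, IsTr j v → 0 ≤ Eg m u g v)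
    (hmin : ∀ g' : M, g' ≠ 0 → (∀ v : Place Ω M, IsTr j v → 0 ≤ Eg m u g' v) →
      delta Ω j m u g ≤ delta Ω j m u g')
    (halgpl : ∃ v : Place Ω M, ¬ IsTr j v) {h : M}
    (h1 : ∀ v : Place Ω M, ¬ IsTr j v → 0 ≤ v.ord h) (h2 : ∀ v : Place Ω M, IsTr j v → -Eg m u g v ≤ v.ord h) :
    ∃ θ : Ω, h = algebraMap Ω M θ := by
  classical
  obtain ⟨v₁, hv₁⟩ := halgpl
  have hmem : h ∈ v₁.toValuationSubring := mem_of_ord_nonneg v₁ (h1 v₁ hv₁)
  refine ⟨ev v₁ (hdeg v₁) h, ?_⟩
  by_contra hne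
  have hh₁0 : h - algebraMap Ω M (ev v₁ (hdeg v₁) h) ≠ 0 := sub_ne_zero.mpr hne
  have hpos : 0 < v₁.ord (h - algebraMap Ω M (ev v₁ (hdeg v₁) h)) :=
    (sub_ev_spec (hdeg v₁) hmem).resolve_left hh₁0
  have hbound : ∀ v : Place Ω M,
      min (v.ord h) 0 ≤ v.ord (h - algebraMap Ω M (ev v₁ (hdeg v₁) h)) := by
    intro v
    have h3 := H95.min_le_ord_add v (f := h) (g := -algebraMap Ω M (ev v₁ (hdeg v₁) h))
      (by rw [← sub_eq_add_neg]; exact hh₁0)
    rwa [H95.ord_neg, H95.ord_algebraMap, ← sub_eq_add_neg] at h3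
  have hgood' : ∀ v : Place Ω M, IsTr j v →
      0 ≤ Eg m u (g * (h - algebraMap Ω M (ev v₁ (hdeg v₁) h))) v := by
    intro v hv
    unfold Eg
    rw [v.ord_mul hg0 hh₁0]
    have e1 := hgood v hv
    have e2 := h2 v hv
    unfold Eg at e1 e2
    have e3 := hbound v
    rcases le_total (v.ord h) 0 with h0 | h0
    · rw [min_eq_left h0] at e3
      omega
    · rw [min_eq_right h0] at e3
      omega
  have hle := hmin _ (mul_ne_zero hg0 hh₁0) hgood'
  have hfin : ∀ g' : M, (Function.support (wg (Ω := Ω) j m u g')).Finite := fun g' =>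
    wg_support_finite j hprin m u
  have hsupp1 : Function.support (fun v : Place Ω M =>
      if IsTr j v then v.ord (h - algebraMap Ω M (ev v₁ (hdeg v₁) h)) else 0)
      ⊆ ↑(dv hprin (h - algebraMap Ω M (ev v₁ (hdeg v₁) h))).support := by
    intro v hv
    rw [Function.mem_support] at hv
    rw [Finset.mem_coe, Finsupp.mem_support_iff, dv_apply]
    intro h0
    apply hv
    rw [h0]
    simp
  have hdelta : delta Ω j m u (g * (h - algebraMap Ω M (ev v₁ (hdeg v₁) h)))
      = delta Ω j m u g + ∑ᶠ v : Place Ω M,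
          (if IsTr j v then v.ord (h - algebraMap Ω M (ev v₁ (hdeg v₁) h)) else 0) := by
    unfold delta
    rw [← finsum_add_distrib (hfin g) ((Finset.finite_toSet _).subset hsupp1)]
    congr 1
    funext v
    unfold wg Eg
    split_ifs
    · rw [v.ord_mul hg0 hh₁0]
      ring
    · simp
  rw [finsum_eq_sum_of_support_subset _ hsupp1] at hdelta
  have hsum := dv_sum hprin (h - algebraMap Ω M (ev v₁ (hdeg v₁) h))
  have hsplit : ∑ v ∈ (dv hprin (h - algebraMap Ω M (ev v₁ (hdeg v₁) h))).support,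
        (if IsTr j v then v.ord (h - algebraMap Ω M (ev v₁ (hdeg v₁) h)) else 0)
      + ∑ v ∈ (dv hprin (h - algebraMap Ω M (ev v₁ (hdeg v₁) h))).support,
        (if IsTr j v then 0 else v.ord (h - algebraMap Ω M (ev v₁ (hdeg v₁) h))) = 0 := by
    rw [← Finset.sum_add_distrib]
    have e : ∀ v ∈ (dv hprin (h - algebraMap Ω M (ev v₁ (hdeg v₁) h))).support,
        (if IsTr j v then v.ord (h - algebraMap Ω M (ev v₁ (hdeg v₁) h)) else 0)
          + (if IsTr j v then 0 else v.ord (h - algebraMap Ω M (ev v₁ (hdeg v₁) h)))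
        = (dv hprin (h - algebraMap Ω M (ev v₁ (hdeg v₁) h))) v := fun v _ => by
      rw [dv_apply]
      split_ifs <;> simp
    rw [Finset.sum_congr rfl e]
    exact hsum
  have halgsum : 1 ≤ ∑ v ∈ (dv hprin (h - algebraMap Ω M (ev v₁ (hdeg v₁) h))).support,
      (if IsTr j v then 0 else v.ord (h - algebraMap Ω M (ev v₁ (hdeg v₁) h))) := by
    have hv₁s : v₁ ∈ (dv hprin (h - algebraMap Ω M (ev v₁ (hdeg v₁) h))).support := by
      rw [Finsupp.mem_support_iff, dv_apply]
      omega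
    have hnn : ∀ v ∈ (dv hprin (h - algebraMap Ω M (ev v₁ (hdeg v₁) h))).support,
        0 ≤ (if IsTr j v then 0 else v.ord (h - algebraMap Ω M (ev v₁ (hdeg v₁) h))) := by
      intro v _
      split_ifs with hv
      · exact le_rfl
      · have e3 := hbound v
        have e4 := h1 v hv
        rw [min_eq_right e4] at e3
        exact e3
    have h5 := Finset.single_le_sum hnn hv₁s
    rw [if_neg hv₁] at h5
    omega
  omega

include hj halg hdeg hprin htt hgen in
/-- **Global step of DESC-D.**  If `m ∣ ord_v u` at all transcendental places, there is `g ≠ 0`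
such that `u g^m` is an eigenvector, with constant eigenvalue, of every admissible derivation. -/
theorem exists_dlog_const [IsAlgClosed k] [CharZero k] (hm : 0 < m) (hu : u ≠ 0)
    (hord : ∀ v : Place Ω M, IsTr j v → (m : ℤ) ∣ v.ord u) (halgpl : ∃ v : Place Ω M, ¬ IsTr j v) :
    ∃ g : M, g ≠ 0 ∧ ∀ d : Derivation ℤ M M,
      (∀ c : Ω, ∃ c' : Ω, d (algebraMap Ω M c) = algebraMap Ω M c') →
      (∀ y : Fk, d (j y) = 0) →
      ∃ θ : Ω, d (u * g ^ m) = algebraMap Ω M θ * (u * g ^ m) := by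
  classical
  have hex : ∃ n : ℕ, ∃ g : M, (g ≠ 0 ∧ ∀ v : Place Ω M, IsTr j v → 0 ≤ Eg m u g v) ∧
      (delta Ω j m u g).toNat = n := by
    obtain ⟨g, hg⟩ := exists_good j x₀ hdeg hprin htt m u hm
    exact ⟨_, g, hg, rfl⟩
  obtain ⟨g, ⟨hg0, hgood⟩, hgn⟩ := Nat.find_spec hex
  have hdelta_nonneg : ∀ g' : M, (∀ v : Place Ω M, IsTr j v → 0 ≤ Eg m u g' v) → 0 ≤ delta Ω j m u g' :=
    fun g' h' => finsum_nonneg fun v => by
      unfold wg
      split_ifs with hv
      · exact h' v hv
      · exact le_rfl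
  have hmin : ∀ g' : M, g' ≠ 0 → (∀ v : Place Ω M, IsTr j v → 0 ≤ Eg m u g' v) →
      delta Ω j m u g ≤ delta Ω j m u g' := by
    intro g' hg'0 hg'
    by_contra hlt
    push Not at hlt
    have e1 := hdelta_nonneg g hgood
    have e2 := hdelta_nonneg g' hg'
    have hlt' : (delta Ω j m u g').toNat < Nat.find hex := by omega
    exact Nat.find_min hex hlt' ⟨g', ⟨hg'0, hg'⟩, rfl⟩
  refine ⟨g, hg0, fun d hdc hdj => ?_⟩
  have hf0 : u * g ^ m ≠ 0 := mul_ne_zero hu (pow_ne_zero m hg0)
  have hh1 : ∀ v : Place Ω M, ¬ IsTr j v → 0 ≤ v.ord (d (u * g ^ m) / (u * g ^ m)) := by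
    intro v hv
    unfold IsTr at hv
    push Not at hv
    exact H52.ord_nonneg_of_mem v
      (dlog_mem_of_alg ι j hj x₀ halg v (hdeg v) hv d hdc hdj hf0 (hgen _))
  have hh2 : ∀ v : Place Ω M, IsTr j v →
      -Eg m u g v ≤ v.ord (d (u * g ^ m) / (u * g ^ m)) := by
    intro v hv
    obtain ⟨hA, hB⟩ := dlog_tr ι j hj x₀ halg v (hdeg v) hv htt hgen d hdc hdj hf0
    have hordf : v.ord (u * g ^ m) = m * Eg m u g v := by
      unfold Eg
      rw [v.ord_mul hu (pow_ne_zero m hg0), Fermat.Agent.S24.ord_pow, mul_add,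
        Int.mul_ediv_cancel' (hord v hv)]
    have hE := hgood v hv
    rcases eq_or_lt_of_le hE with h0 | hpos
    · rw [← h0, neg_zero]
      exact H52.ord_nonneg_of_mem v (hB (by rw [hordf, ← h0, mul_zero]))
    · omega
  obtain ⟨θ, hθ⟩ := claimL j hdeg hprin m u hg0 hgood hmin halgpl hh1 hh2
  refine ⟨θ, ?_⟩
  rw [← hθ]
  field_simp

end Global

end Fermat.Agent.S29.H42
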