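/-
S29 / S42 Program A, descent `ℂ → ℚ̄` by derivations (DESC-D), helper42.
Instantiation of the abstract core (`DGlobal.exists_dlog_const`) at the Prelude objects
`laurentBaseChange k F₀ ⊆ k((q))`, `laurentBaseChange Ω F₀ ⊆ Ω((q))` and final assembly.

`desc_deriv_core`: the descent, with the function-field hypotheses on `laurentBaseChange Ω F₀`
taken as arguments (they are discharged in `DescDeriv.lean`).
-/
import Fermat.Agent.S29.H42.DGlobal
import Fermat.Agent.S42.H11.LinDisj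
import Fermat.Agent.S29.H11.LaurentDeriv
import Fermat.Agent.S29.H11.DerivTransc
import Fermat.Agent.S18.H13.PrincDiv
import Fermat.Agent.S18.H42.Fibres

set_option autoImplicit false

open AlgebraicCurve ModularCurve IntermediateField
open scoped TensorProduct

noncomputable section

namespace Fermat.Agent.S29.H42

open Fermat.Agent.S24 Fermat.Agent.S18.H29 Fermat.Agent.S42.H11 Fermat.Agent.S29.H11

variable {k Ω : Type*} [Field k] [Field Ω] [Algebra ℚ k] [Algebra ℚ Ω] [Algebra k Ω]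
variable (F₀ : IntermediateField ℚ (LaurentSeries ℚ))

/-- values of `baseMap` are `Ω`-combinations of elements of `baseIncl (F_k)` -/
theorem baseMap_mem_adjoin (t : Ω ⊗[k] laurentBaseChange k F₀) :
    baseMap k Ω F₀ t ∈ Algebra.adjoin Ω (Set.range (baseIncl k Ω F₀)) := by
  induction t using TensorProduct.induction_on with
  | zero => rw [map_zero]; exact Subalgebra.zero_mem _
  | tmul c x =>
    rw [baseMap_tmul]
    exact Subalgebra.mul_mem _ (Subalgebra.algebraMap_mem _ c) (Algebra.subset_adjoin ⟨x, rfl⟩)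
  | add a b ha hb => rw [map_add]; exact Subalgebra.add_mem _ ha hb

/-- every element of `F_Ω` is a quotient of `Ω`-combinations of elements of `baseIncl (F_k)` -/
theorem hgen_base (f : laurentBaseChange Ω F₀) :
    ∃ p q : laurentBaseChange Ω F₀, p ∈ Algebra.adjoin Ω (Set.range (baseIncl k Ω F₀)) ∧
      q ∈ Algebra.adjoin Ω (Set.range (baseIncl k Ω F₀)) ∧ q ≠ 0 ∧ f = p / q := by
  obtain ⟨a, b, hb, hab⟩ := exists_eq_div k Ω F₀ f
  exact ⟨_, _, baseMap_mem_adjoin F₀ a, baseMap_mem_adjoin F₀ b, hb, hab⟩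

theorem baseIncl_algebraMap (a : k) :
    baseIncl k Ω F₀ (algebraMap k (laurentBaseChange k F₀) a)
      = algebraMap Ω (laurentBaseChange Ω F₀) (algebraMap k Ω a) :=
  Subtype.ext (coeffMap_algebraMap_base Ω a)

/-- the coefficientwise derivation of `F_Ω` attached to a derivation of `Ω` -/
def dM (D : Derivation ℚ Ω Ω) :
    Derivation ℤ (laurentBaseChange Ω F₀) (laurentBaseChange Ω F₀) :=
  Derivation.mk'
    (AddMonoidHom.toIntLinearMap
      { toFun := fun z => ⟨coeffDer D (z : LaurentSeries Ω), coeffDer_mem_laurentBaseChange D z.2⟩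
        map_zero' := Subtype.ext (by simp)
        map_add' := fun a b => Subtype.ext (by simp) })
    (fun a b => Subtype.ext (by
      show coeffDer D ((a : LaurentSeries Ω) * (b : LaurentSeries Ω))
        = (a : LaurentSeries Ω) * coeffDer D (b : LaurentSeries Ω)
          + (b : LaurentSeries Ω) * coeffDer D (a : LaurentSeries Ω)
      rw [coeffDer_mul]
      ring))

theorem coe_dM (D : Derivation ℚ Ω Ω) (z : laurentBaseChange Ω F₀) :
    ((dM F₀ D z : laurentBaseChange Ω F₀) : LaurentSeries Ω) = coeffDer D (z : LaurentSeries Ω) :=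
  rfl

theorem dM_algebraMap (D : Derivation ℚ Ω Ω) (c : Ω) :
    dM F₀ D (algebraMap Ω (laurentBaseChange Ω F₀) c)
      = algebraMap Ω (laurentBaseChange Ω F₀) (D c) :=
  Subtype.ext (coeffDer_algebraMap D c)

theorem dM_baseIncl (D : Derivation ℚ Ω Ω) (hD : ∀ a : k, D (algebraMap k Ω a) = 0)
    (x : laurentBaseChange k F₀) : dM F₀ D (baseIncl k Ω F₀ x) = 0 :=
  Subtype.ext (coeffDer_coeffMap (algebraMap k Ω) D hD (x : LaurentSeries k))

/-- **DESC-D, core form.**  Descent `Ω → k` of functions whose divisor is divisible by `m` at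
the transcendental places, by derivations.  The function-field hypotheses on `F_Ω` are arguments
here. -/
theorem desc_deriv_core [IsAlgClosed k] [IsAlgClosed Ω]
    (x₀ : laurentBaseChange k F₀) [Algebra.IsAlgebraic k⟮x₀⟯ (laurentBaseChange k F₀)]
    [Algebra.IsAlgebraic Ω⟮baseIncl k Ω F₀ x₀⟯ (laurentBaseChange Ω F₀)]
    (hX : Transcendental Ω (baseIncl k Ω F₀ x₀))
    (S' : Set (laurentBaseChange Ω F₀)) (hS'f : S'.Finite)
    (hS' : IntermediateField.adjoin Ω S' = ⊤)
    (hD0 : ∀ (D : Derivation ℚ Ω Ω) (a : k), D (algebraMap k Ω a) = 0)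
    (m : ℕ) (hm : 0 < m) (u : laurentBaseChange Ω F₀) (hu : u ≠ 0)
    (hord : ∀ v : Place Ω (laurentBaseChange Ω F₀), IsTr (baseIncl k Ω F₀) v →
      (m : ℤ) ∣ v.ord u) :
    ∃ (c : Ω) (u₀ : laurentBaseChange k F₀) (w : laurentBaseChange Ω F₀), c ≠ 0 ∧ u₀ ≠ 0 ∧
      w ≠ 0 ∧ u = algebraMap Ω (laurentBaseChange Ω F₀) c * baseIncl k Ω F₀ u₀ * w ^ m := by
  classical
  have : CharZero Ω := algebraRat.charZero Ω
  have : CharZero k := algebraRat.charZero k
  have : FiniteDimensional Ω⟮baseIncl k Ω F₀ x₀⟯ (laurentBaseChange Ω F₀) :=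
    Fermat.Agent.S18.H13.finiteDimensional_adjoin_of_transcendental (baseIncl k Ω F₀ x₀)
      S' hS'f hS' hX
  have hdeg : ∀ v : Place Ω (laurentBaseChange Ω F₀), v.deg = 1 := fun v =>
    Fermat.Agent.S24.deg_eq_one (baseIncl k Ω F₀ x₀) v
  have hprin : ∀ f : laurentBaseChange Ω F₀, f ≠ 0 →
      ∃ D : Place Ω (laurentBaseChange Ω F₀) →₀ ℤ, (∀ P, D P = P.ord f) ∧
        (D.sum fun _ n => n) = 0 := by
    intro f hf
    obtain ⟨D, hD, hD0⟩ := Fermat.Agent.S18.H13.exists_divisor_of_ne_zero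
      (baseIncl k Ω F₀ x₀) S' hS'f hS' hf
    refine ⟨D, hD, ?_⟩
    rw [Fermat.Agent.S24.H95.degree_eq_sum_of_support_subset hdeg D D.support
      (Finset.Subset.refl _)] at hD0
    exact hD0
  obtain ⟨v₁, hv₁⟩ := Fermat.Agent.S18.H42.exists_over (baseIncl k Ω F₀ x₀) hX 0
  have hx₀0 : x₀ ≠ 0 := by
    rintro rfl
    apply hX
    rw [map_zero]
    exact isAlgebraic_zero
  have htt : ∀ c : Ω, baseIncl k Ω F₀ x₀ ≠ algebraMap Ω (laurentBaseChange Ω F₀) c := fun c =>
    H94.ne_algebraMap (baseIncl k Ω F₀ x₀) v₁ c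
  have halgpl : ∃ v : Place Ω (laurentBaseChange Ω F₀), ¬ IsTr (baseIncl k Ω F₀) v := by
    refine ⟨v₁, fun h => h x₀ hx₀0 ?_⟩
    rw [map_zero, sub_zero] at hv₁
    exact (H94.ord_pos_iff_mem_nonunits v₁
      ((map_ne_zero (baseIncl k Ω F₀)).mpr hx₀0)).mp hv₁
  obtain ⟨g, hg0, hg⟩ := exists_dlog_const (algebraMap k Ω) (baseIncl k Ω F₀)
    (baseIncl_algebraMap F₀) x₀ (H94.isAlgebraic_adjoin x₀) hdeg hprin htt (hgen_base F₀)
    m u hm hu hord halgpl
  have hf0 : u * g ^ m ≠ 0 := mul_ne_zero hu (pow_ne_zero m hg0)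
  have hfL : ((u * g ^ m : laurentBaseChange Ω F₀) : LaurentSeries Ω) ≠ 0 := fun h =>
    hf0 (Subtype.ext h)
  have ha : ((u * g ^ m : laurentBaseChange Ω F₀) : LaurentSeries Ω).coeff
      ((u * g ^ m : laurentBaseChange Ω F₀) : LaurentSeries Ω).order ≠ 0 :=
    fun h => hfL (HahnSeries.coeff_order_eq_zero.mp h)
  set a : Ω := ((u * g ^ m : laurentBaseChange Ω F₀) : LaurentSeries Ω).coeff
      ((u * g ^ m : laurentBaseChange Ω F₀) : LaurentSeries Ω).order with hadef
  set n₀ : ℤ := ((u * g ^ m : laurentBaseChange Ω F₀) : LaurentSeries Ω).order with hn₀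
  -- the normalised function
  have hcoefC : ∀ (c : Ω) (z : laurentBaseChange Ω F₀) (n : ℤ),
      ((algebraMap Ω (laurentBaseChange Ω F₀) c * z : laurentBaseChange Ω F₀) :
        LaurentSeries Ω).coeff n = c * (z : LaurentSeries Ω).coeff n := by
    intro c z n
    show (algebraMap Ω (LaurentSeries Ω) c * (z : LaurentSeries Ω)).coeff n = _
    rw [algebraMap_laurentSeries_eq_single, HahnSeries.coeff_single_zero_mul]
  have hkill : ∀ D : Derivation ℚ Ω Ω,
      dM F₀ D (algebraMap Ω (laurentBaseChange Ω F₀) a⁻¹ * (u * g ^ m)) = 0 := by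
    intro D
    obtain ⟨θ, hθ⟩ := hg (dM F₀ D) (fun c => ⟨D c, dM_algebraMap F₀ D c⟩)
      (dM_baseIncl F₀ D (hD0 D))
    have h1 : dM F₀ D (algebraMap Ω (laurentBaseChange Ω F₀) a⁻¹ * (u * g ^ m))
        = algebraMap Ω (laurentBaseChange Ω F₀) (D a⁻¹ * a + θ)
          * (algebraMap Ω (laurentBaseChange Ω F₀) a⁻¹ * (u * g ^ m)) := by
      rw [Derivation.leibniz, hθ, dM_algebraMap]
      simp only [smul_eq_mul, map_add, map_mul]
      have : algebraMap Ω (laurentBaseChange Ω F₀) a * algebraMap Ω (laurentBaseChange Ω F₀) a⁻¹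
          = 1 := by
        rw [← map_mul, mul_inv_cancel₀ ha, map_one]
      linear_combination (-(algebraMap Ω (laurentBaseChange Ω F₀) (D a⁻¹)) * (u * g ^ m)) * this
    have h2 := congrArg (fun z : laurentBaseChange Ω F₀ => (z : LaurentSeries Ω).coeff n₀) h1
    simp only [coe_dM, coeffDer_coeff, hcoefC] at h2
    rw [← hadef, inv_mul_cancel₀ ha, mul_one] at h2
    rw [h1, ← h2, Derivation.map_one_eq_zero, map_zero, zero_mul]
  have hcoeff : ∀ n : ℤ, ∃ c : k, algebraMap k Ω c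
      = ((algebraMap Ω (laurentBaseChange Ω F₀) a⁻¹ * (u * g ^ m) : laurentBaseChange Ω F₀) :
          LaurentSeries Ω).coeff n := by
    intro n
    refine exists_map_eq_of_forall_derivation (algebraMap k Ω) fun D => ?_
    have h3 := congrArg (fun z : laurentBaseChange Ω F₀ => (z : LaurentSeries Ω).coeff n)
      (hkill D)
    simpa only [coe_dM, coeffDer_coeff, ZeroMemClass.coe_zero, HahnSeries.coeff_zero] using h3
  obtain ⟨u₀, hu₀⟩ := exists_baseIncl_eq_of_coeff k Ω F₀ hcoeff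
  have hCa : algebraMap Ω (laurentBaseChange Ω F₀) a ≠ 0 :=
    (map_ne_zero (algebraMap Ω (laurentBaseChange Ω F₀))).mpr ha
  have hCa' : algebraMap Ω (laurentBaseChange Ω F₀) a⁻¹
      = (algebraMap Ω (laurentBaseChange Ω F₀) a)⁻¹ := map_inv₀ _ _
  refine ⟨a, u₀, g⁻¹, ha, ?_, inv_ne_zero hg0, ?_⟩
  · rintro rfl
    rw [map_zero] at hu₀
    have h4 : algebraMap Ω (laurentBaseChange Ω F₀) a⁻¹ * (u * g ^ m) ≠ 0 :=
      mul_ne_zero ((map_ne_zero _).mpr (inv_ne_zero ha)) hf0
    exact h4 hu₀.symm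
  · rw [hu₀, hCa', inv_pow]
    have := pow_ne_zero m hg0
    field_simp

end Fermat.Agent.S29.H42
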